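/-
Project S35, instance-level cell [FROB-N] "FROBENIUS AT THE NODES", Gauss half (helper20).
Frobenius twin of `SS/Model/GaussSigma.lean` (helper8).  Prefix `s35nf_`.

For a ring automorphism `σ` of `L` which is a FROBENIUS LIFT at the valuation ring `O`
(`s35nf_FrobAt O σ q`: `σ`, `σ⁻¹` preserve `O` and `σ a ≡ a^q` modulo `𝔪_O`), the coefficientwise
action `coeffMap σ` on `L((X))` preserves the Gauss ring and induces the coefficientwise Frobenius
on the Gauss residue field: `gq_res (coeffMap σ z) = coeffMap Frob (gq_res z)`.  Hence, with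
`β = (X ↦ X^q)`:  `gq_res (β (coeffMap σ z)) = (gq_res z)^q`, and for every subfield
`E ≤ gq_quotField O L`:

  `t' - t ^ q ∈ 𝔪(V(E))`  whenever `t ∈ V(E)` and `t' = β (coeffMap σ t)`     (`s35nf_frob_mem_nonunits`)

— the `σ`-twisted version of (G1) `ssm_ga_frob_mem_nonunits` (which needed `𝔽_q`-coefficients).
-/
import Mathlib
import Fermat.Agent.SS.Model.Gauss

set_option autoImplicit false
set_option linter.unusedSectionVars false
set_option linter.style.haveILetI false

noncomputable section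

open ModularCurve IsLocalRing

namespace Fermat.Agent.S35

open Fermat.Agent.JT3 Fermat.Agent.SS

/-- **`σ` is a Frobenius lift at `O`**: `σ`, `σ⁻¹` preserve `O` and `σ a ≡ a^q` modulo the maximal
ideal. -/
def s35nf_FrobAt {L : Type*} [Field L] (O : ValuationSubring L) (σ : L ≃+* L) (q : ℕ) : Prop :=
  ∀ x ∈ O, σ x ∈ O ∧ σ.symm x ∈ O ∧ σ x - x ^ q ∈ O.nonunits

section Sigma

variable {L : Type*} [Field L] {O : ValuationSubring L} {σ : L ≃+* L} {q : ℕ}

/-- the restriction of a Frobenius lift `σ` to `O`. -/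
def s35nf_resHom (h : s35nf_FrobAt O σ q) : O →+* O where
  toFun x := ⟨σ x, (h x x.2).1⟩
  map_one' := Subtype.ext (map_one σ)
  map_mul' x y := Subtype.ext (map_mul σ (x : L) (y : L))
  map_zero' := Subtype.ext (map_zero σ)
  map_add' x y := Subtype.ext (map_add σ (x : L) (y : L))

@[simp] theorem s35nf_resHom_coe (h : s35nf_FrobAt O σ q) (x : O) :
    ((s35nf_resHom h x : O) : L) = σ x := rfl

theorem s35nf_resHom_injective (h : s35nf_FrobAt O σ q) :
    Function.Injective (s35nf_resHom h) := by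
  intro x y hxy
  have := congrArg (fun z : O => (z : L)) hxy
  exact Subtype.ext (σ.injective this)

/-- the restriction of `σ` to `O` as a ring automorphism. -/
def s35nf_base (h : s35nf_FrobAt O σ q) : O ≃+* O where
  toFun := s35nf_resHom h
  invFun x := ⟨σ.symm x, (h x x.2).2.1⟩
  left_inv x := Subtype.ext (σ.symm_apply_apply (x : L))
  right_inv x := Subtype.ext (σ.apply_symm_apply (x : L))
  map_mul' := map_mul (s35nf_resHom h)
  map_add' := map_add (s35nf_resHom h)

@[simp] theorem s35nf_base_coe (h : s35nf_FrobAt O σ q) (x : O) :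
    ((s35nf_base h x : O) : L) = σ x := rfl

/-- a Frobenius lift induces `a ↦ a^q` on the residue field. -/
theorem s35nf_residue (h : s35nf_FrobAt O σ q) (x : O) :
    residue O (s35nf_resHom h x) = residue O x ^ q := by
  rw [← map_pow, ← sub_eq_zero, ← map_sub, residue_eq_zero_iff,
    ← ValuationSubring.coe_mem_nonunits_iff]
  exact (h x x.2).2.2

/-- `σ²` induces `a ↦ a^(q²)` on the residue field. -/
theorem s35nf_residue_sq (h : s35nf_FrobAt O σ q) (x : O) :
    residue O (s35nf_resHom h (s35nf_resHom h x)) = residue O x ^ (q ^ 2) := by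
  rw [s35nf_residue, s35nf_residue, ← pow_mul, pow_two]

theorem s35nf_coeffMap_iota (h : s35nf_FrobAt O σ q) (y : LaurentSeries O) :
    coeffMap (σ : L →+* L) (coeffMap (algebraMap O L) y) =
      coeffMap (algebraMap O L) (coeffMap (s35nf_resHom h) y) := by
  ext n
  rfl

theorem s35nf_coeffMap_injective (h : s35nf_FrobAt O σ q) :
    Function.Injective (coeffMap (s35nf_resHom h)) := by
  intro x y hxy
  apply HahnSeries.ext
  funext n
  have := congrArg (fun z : LaurentSeries O => z.coeff n) hxy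
  exact s35nf_resHom_injective h this

variable [hq : Fact q.Prime] [CharP (ResidueField O) q]

/-- reduction intertwines `coeffMap σ` with the coefficientwise Frobenius. -/
theorem s35nf_red (h : s35nf_FrobAt O σ q) (y : LaurentSeries O) :
    coeffMap (residue O) (coeffMap (s35nf_resHom h) y) =
      coeffMap (frobenius (ResidueField O) q) (coeffMap (residue O) y) := by
  ext n
  exact s35nf_residue h (y.coeff n)

theorem s35nf_coeffMap_frobenius_injective :
    Function.Injective (coeffMap (frobenius (ResidueField O) q)) := by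
  intro x y hxy
  apply HahnSeries.ext
  funext n
  have := congrArg (fun z : LaurentSeries (ResidueField O) => z.coeff n) hxy
  exact (frobenius (ResidueField O) q).injective this

theorem s35nf_red_ne_zero (h : s35nf_FrobAt O σ q) {y : LaurentSeries O}
    (hy : coeffMap (residue O) y ≠ 0) :
    coeffMap (residue O) (coeffMap (s35nf_resHom h) y) ≠ 0 := by
  rw [s35nf_red]
  intro h0
  exact hy (s35nf_coeffMap_frobenius_injective (by rw [h0, map_zero]))

/-- `coeffMap σ` preserves the field of quotients. -/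
theorem s35nf_isQuot (h : s35nf_FrobAt O σ q) {z : LaurentSeries L} (hz : gq_IsQuot O L z) :
    gq_IsQuot O L (coeffMap (σ : L →+* L) z) := by
  obtain ⟨z1, z2, hz2, hzz⟩ := hz
  refine ⟨coeffMap (s35nf_resHom h) z1, coeffMap (s35nf_resHom h) z2, ?_, ?_⟩
  · intro h0
    exact hz2 (s35nf_coeffMap_injective h (by rw [h0, map_zero]))
  · rw [← s35nf_coeffMap_iota, ← s35nf_coeffMap_iota, ← map_mul, hzz]

/-- `coeffMap σ` preserves Gauss-boundedness. -/
theorem s35nf_isBdd (h : s35nf_FrobAt O σ q) {z : LaurentSeries L} (hz : gq_IsBdd O L z) :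
    gq_IsBdd O L (coeffMap (σ : L →+* L) z) := by
  obtain ⟨z1, z2, hz2, hzz⟩ := hz
  refine ⟨coeffMap (s35nf_resHom h) z1, coeffMap (s35nf_resHom h) z2, s35nf_red_ne_zero h hz2, ?_⟩
  rw [← s35nf_coeffMap_iota, ← s35nf_coeffMap_iota, ← map_mul, hzz]

/-- **`σ` induces the coefficientwise Frobenius on the Gauss residue field.** -/
theorem s35nf_res (h : s35nf_FrobAt O σ q) (z : ↥(gq_bddSubring O L)) :
    gq_res O L ⟨coeffMap (σ : L →+* L) (z : LaurentSeries L), s35nf_isBdd h z.2⟩ =
      coeffMap (frobenius (ResidueField O) q) (gq_res O L z) := by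
  obtain ⟨z1, z2, hz2, hzz⟩ := z.2
  rw [gq_res_eq z hz2 hzz]
  rw [gq_res_eq _ (z1 := coeffMap (s35nf_resHom h) z1) (z2 := coeffMap (s35nf_resHom h) z2)
    (s35nf_red_ne_zero h hz2)
    (by
      show coeffMap (σ : L →+* L) (z : LaurentSeries L) * _ = _
      rw [← s35nf_coeffMap_iota, ← s35nf_coeffMap_iota, ← map_mul, hzz]),
    s35nf_red, s35nf_red, map_div₀]

/-- **the Frobenius congruence on the Gauss residue field**: `res (β (σ z)) = (res z)^q`. -/
theorem s35nf_frob_res [NeZero q] (h : s35nf_FrobAt O σ q) (z : ↥(gq_bddSubring O L)) :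
    gq_res O L ⟨qExpand L q (coeffMap (σ : L →+* L) (z : LaurentSeries L)),
        ssm_ga_beta_isBdd q (s35nf_isBdd h z.2)⟩ = gq_res O L z ^ q := by
  have h1 := ssm_ga_res_beta (O := O) (K := L) q
    (⟨coeffMap (σ : L →+* L) (z : LaurentSeries L), s35nf_isBdd h z.2⟩ : ↥(gq_bddSubring O L))
  rw [h1, s35nf_res h z]
  exact (ca_pow_eq_qExpand_frobenius (ResidueField O) q (gq_res O L z)).symm

end Sigma

section SigmaE

variable {L : Type*} [Field L] {O : ValuationSubring L} [WfDvdMonoid O] {σ : L ≃+* L} {q : ℕ}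
  [NeZero q] [hq : Fact q.Prime] [CharP (ResidueField O) q]
variable (π : O) (hπ0 : π ≠ 0) (hπ : maximalIdeal O = Ideal.span {π})
  (E : IntermediateField L (LaurentSeries L)) (hE : E ≤ gq_quotField O L)

/-- `σ` maps the Gauss ring of `E` into itself (for elements whose `σ`-image lies in `E`). -/
theorem s35nf_mem_valSubOf (h : s35nf_FrobAt O σ q) (t t' : ↥E)
    (ht : (t' : LaurentSeries L) = coeffMap (σ : L →+* L) (t : LaurentSeries L))
    (htV : t ∈ gq_valSubOf π hπ0 hπ E hE) : t' ∈ gq_valSubOf π hπ0 hπ E hE := by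
  rw [gq_mem_valSubOf, ht]
  exact s35nf_isBdd h htV

/-- `σ` maps the maximal ideal of the Gauss ring of `E` into itself. -/
theorem s35nf_mem_nonunits (h : s35nf_FrobAt O σ q) (t t' : ↥E)
    (ht : (t' : LaurentSeries L) = coeffMap (σ : L →+* L) (t : LaurentSeries L))
    (htV : t ∈ (gq_valSubOf π hπ0 hπ E hE).nonunits) :
    t' ∈ (gq_valSubOf π hπ0 hπ E hE).nonunits := by
  have htb : gq_IsBdd O L (t : LaurentSeries L) := ValuationSubring.nonunits_subset htV
  have ht'b : gq_IsBdd O L (t' : LaurentSeries L) := by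
    rw [ht]
    exact s35nf_isBdd h htb
  rw [gq_mem_nonunits_iff_res π hπ0 hπ E hE _ ht'b]
  have h0 := (gq_mem_nonunits_iff_res π hπ0 hπ E hE _ htb).1 htV
  have h1 := s35nf_res h (⟨(t : LaurentSeries L), htb⟩ : ↥(gq_bddSubring O L))
  rw [h0, map_zero] at h1
  rw [← h1]
  congr 1
  exact Subtype.ext ht

/-- **(G1σ) the twisted Frobenius congruence**: `β (σ t) - t^q ∈ 𝔪(V(E))` for `t ∈ V(E)`. -/
theorem s35nf_frob_mem_nonunits (h : s35nf_FrobAt O σ q) (t t' : ↥E)
    (ht : (t' : LaurentSeries L) = qExpand L q (coeffMap (σ : L →+* L) (t : LaurentSeries L)))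
    (htV : t ∈ gq_valSubOf π hπ0 hπ E hE) :
    t' - t ^ q ∈ (gq_valSubOf π hπ0 hπ E hE).nonunits := by
  have htb : gq_IsBdd O L (t : LaurentSeries L) := htV
  have ht'b : gq_IsBdd O L (t' : LaurentSeries L) := by
    rw [ht]
    exact ssm_ga_beta_isBdd q (s35nf_isBdd h htb)
  have htqb : gq_IsBdd O L ((t ^ q : ↥E) : LaurentSeries L) := by
    have : ((t ^ q : ↥E) : LaurentSeries L) = (t : LaurentSeries L) ^ q := rfl
    rw [this]
    exact (gq_bddSubring O L).pow_mem htb q
  have hb : gq_IsBdd O L ((t' - t ^ q : ↥E) : LaurentSeries L) :=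
    (gq_bddSubring O L).sub_mem ht'b htqb
  rw [gq_mem_nonunits_iff_res π hπ0 hπ E hE _ hb]
  have hsplit : (⟨((t' - t ^ q : ↥E) : LaurentSeries L), hb⟩ : ↥(gq_bddSubring O L)) =
      ⟨(t' : LaurentSeries L), ht'b⟩ - (⟨(t : LaurentSeries L), htb⟩ : ↥(gq_bddSubring O L)) ^ q :=
    rfl
  rw [hsplit, map_sub, map_pow, sub_eq_zero]
  have h1 := s35nf_frob_res h (⟨(t : LaurentSeries L), htb⟩ : ↥(gq_bddSubring O L))
  rw [← h1]
  congr 1
  exact Subtype.ext ht

end SigmaE

end Fermat.Agent.S35
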