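/-
Project S35, instance-level cell [FROB-N] "FROBENIUS AT THE NODES", the Gauss tower (helper20).
Prefix `s35nf_`.

Context = helper8's generic tower of `TwoPrimesInst.lean` / helper2's `ssm_nl_cross_gt`: `E' ≤ E` fields
of Laurent series over `L` inside the field of bounded quotients, `W` the involution of `E` with
`W z = z(X^q)` on `E'`, `[E : E'] = q + 1`, `λ'` the coordinate, `V₁` the Gauss valuation subring,
`V₂ = W V₁`, `B' = fc_chart O {λ'}`, `B = fc_chart O {ι λ'}`, `P_i = ssm_tp_P B V_i`.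

`σ` a FROBENIUS LIFT at `O` (`s35nf_FrobAt O σ q`), `σ_{E'}`, `σ_E` its coefficientwise actions on
`E'`, `E`, fixing `λ'`.  Then at every maximal crossing point `𝔫 ⊇ P1 + P2` of `B`:

  `σ_E (σ_E b) - b ^ (q²) ∈ 𝔫` for every `b ∈ B`          (`s35nf_tower`),

and `σ_E² z ∈ 𝔫 ↔ z ∈ 𝔫` (second clause of `s35nf_tower`); `σ_E B ⊆ B` is `s35nf_tower_mem_chart`;
`σ_E 𝔪(V₁) ⊆ 𝔪(V₁)` is `s35nf_mem_nonunits` (`Gauss.lean`).
-/
import Mathlib
import Fermat.Agent.S35.NodeFrob.Abstract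
import Fermat.Agent.S35.NodeFrob.Gauss
import Fermat.Agent.SS.Model.NodeCross
import Fermat.Agent.SS.Model.TwoPrimesInst
import Fermat.Agent.SS.Model.Sigma

set_option autoImplicit false
set_option linter.unusedSectionVars false
set_option linter.unusedVariables false
set_option linter.style.haveILetI false

noncomputable section

open ModularCurve IntermediateField IsLocalRing Polynomial
open Fermat.Agent.JT3 Fermat.Agent.SS

namespace Fermat.Agent.S35

section Tower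

variable {L : Type*} [Field L] [CharZero L] (O : ValuationSubring L)
  [IsDiscreteValuationRing O] {π : O} (hπ : Irreducible π)
variable (q : ℕ) [NeZero q] [hq : Fact q.Prime] [CharP (ResidueField O) q]
variable (E' E : IntermediateField L (LaurentSeries L)) (hle : E' ≤ E)
  (hE : E ≤ gq_quotField O L)

omit [CharZero L] [IsDiscreteValuationRing ↥O] [NeZero q] in
/-- `σ_E` preserves every chart whose coordinates it fixes. -/
theorem s35nf_tower_mem_chart (σ : L ≃+* L) (hσ : s35nf_FrobAt O σ q) (σE : ↥E →+* ↥E)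
    (hσE : ∀ z : ↥E, ((σE z : ↥E) : LaurentSeries L) =
      coeffMap (σ : L →+* L) (z : LaurentSeries L))
    (S : Set ↥E) (hS : ∀ s ∈ S, σE s = s) {z : ↥E} (hz : z ∈ fc_chart ↥O S) :
    σE z ∈ fc_chart ↥O S := by
  refine ssm_sg_chart σE (s35nf_resHom hσ) (fun a => ?_) S
    (fun s hs => by rw [hS s hs]; exact Algebra.subset_adjoin hs) hz
  apply Subtype.ext
  rw [hσE]
  exact ssm_sg_coeffMap_algebraMap (σ : L →+* L) (a : L)

set_option synthInstance.maxHeartbeats 200000 in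
set_option maxHeartbeats 1600000 in
/-- **[FROB-N] for a tower of Laurent-series fields**: at every maximal crossing point `𝔫` of the
chart `B = fc_chart O {ι λ'}`, `σ_E² b ≡ b^(q²)` for all `b ∈ B`, and `σ_E² 𝔫 = 𝔫`. -/
theorem s35nf_tower (W : ↥E ≃+* ↥E) (hWW : ∀ x, W (W x) = x)
    (hW : ∀ z : ↥E', ((W (IntermediateField.inclusion hle z) : ↥E) : LaurentSeries L) =
      qExpand L q (z : LaurentSeries L))
    (hrank : IntermediateField.relfinrank E' E = q + 1)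
    (y : LaurentSeries O) (hyF : ssm_ga_FrobFixed q y) (n : ℤ) (hn : ¬ (q : ℤ) ∣ n)
    (hyn : residue O (y.coeff n) ≠ 0) (lam' : ↥E')
    (hlam : (lam' : LaurentSeries L) = coeffMap (algebraMap O L) y)
    [FiniteDimensional L⟮lam'⟯ ↥E']
    [FiniteDimensional L⟮IntermediateField.inclusion hle lam'⟯ ↥E]
    (hprime : Prime (algebraMap ↥O (fc_chart ↥O ({lam'} : Set ↥E')) π))
    (hic : IsIntegrallyClosed (fc_chart ↥O ({lam'} : Set ↥E') ⧸
      (Ideal.span {algebraMap ↥O (fc_chart ↥O ({lam'} : Set ↥E')) π} :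
        Ideal (fc_chart ↥O ({lam'} : Set ↥E')))))
    (hWB : ∀ b ∈ fc_chart ↥O ({IntermediateField.inclusion hle lam'} : Set ↥E),
      W b ∈ fc_chart ↥O ({IntermediateField.inclusion hle lam'} : Set ↥E))
    -- the Frobenius lift
    (σ : L ≃+* L) (hσ : s35nf_FrobAt O σ q)
    (σE' : ↥E' →+* ↥E')
    (hσE' : ∀ z : ↥E', ((σE' z : ↥E') : LaurentSeries L) =
      coeffMap (σ : L →+* L) (z : LaurentSeries L))
    (σE : ↥E →+* ↥E)
    (hσE : ∀ z : ↥E, ((σE z : ↥E) : LaurentSeries L) =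
      coeffMap (σ : L →+* L) (z : LaurentSeries L))
    (hσlam : σE' lam' = lam')
    (𝔫 : Ideal (fc_chart ↥O ({IntermediateField.inclusion hle lam'} : Set ↥E)))
    (h𝔫 : 𝔫.IsMaximal)
    (hP1 : ssm_tp_P (fc_chart ↥O ({IntermediateField.inclusion hle lam'} : Set ↥E))
      (gq_valSubOf π hπ.ne_zero hπ.maximalIdeal_eq E hE) ≤ 𝔫)
    (hP2 : ssm_tp_P (fc_chart ↥O ({IntermediateField.inclusion hle lam'} : Set ↥E))
      ((gq_valSubOf π hπ.ne_zero hπ.maximalIdeal_eq E hE).comap (W : ↥E →+* ↥E)) ≤ 𝔫) :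
    (∀ b : fc_chart ↥O ({IntermediateField.inclusion hle lam'} : Set ↥E),
      ∃ m ∈ 𝔫, ((m : fc_chart ↥O ({IntermediateField.inclusion hle lam'} : Set ↥E)) : ↥E) =
        σE (σE (b : ↥E)) - (b : ↥E) ^ (q ^ 2)) ∧
    (∀ z : fc_chart ↥O ({IntermediateField.inclusion hle lam'} : Set ↥E),
      (∃ m ∈ 𝔫, ((m : fc_chart ↥O ({IntermediateField.inclusion hle lam'} : Set ↥E)) : ↥E) =
        σE (σE (z : ↥E))) ↔ z ∈ 𝔫) := by
  letI := ssm_gi_algebra hle
  letI := ssm_gi_algebraV hle (gq_valSubOf π hπ.ne_zero hπ.maximalIdeal_eq E' (hle.trans hE))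
  haveI := ssm_gi_isScalarTower hle
    (gq_valSubOf π hπ.ne_zero hπ.maximalIdeal_eq E' (hle.trans hE))
  have hfr : Module.finrank ↥E' ↥E = q + 1 := (ssm_gt_finrank_eq hle).trans hrank
  haveI : FiniteDimensional ↥E' ↥E := ssm_gi_finiteDimensional hfr
  haveI : Algebra.IsSeparable ↥E' ↥E := ssm_gi_isSeparable
  haveI := ssm_go_isScalarTower O E
  haveI := ssm_go_isScalarTower O E'
  haveI := ssm_gt_isScalarTower O hle
  have hn0 : n ≠ 0 := by
    rintro rfl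
    exact hn (dvd_zero _)
  have D := ssm_gt_data O hπ q E' E hle hE W hWW hW hrank y hyF n hn hyn lam' hlam
  have hx : Transcendental L lam' := ssm_go_transcendental O E' y lam' hlam hn0 hyn
  have hxE : Transcendental L (algebraMap ↥E' ↥E lam') :=
    ssm_go_transcendental O E y (IntermediateField.inclusion hle lam') hlam hn0 hyn
  have H := ssm_gt_hyp O hπ q E' E hle hE W hWW hW hrank y hyF n hn hyn lam' hlam hprime
  obtain ⟨hadd, -, -⟩ := ssm_cpi_ff (L := L) (y := lam') D hπ hx hxE hprime hic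
    (gq_valSubOf π hπ.ne_zero hπ.maximalIdeal_eq E' (hle.trans hE))
    (fun z => (ssm_gi_mem_range _ z).symm)
    (ssm_go_over O E' y lam' hlam hπ (hle.trans hE) hn0 hyn) H
  have hC := ssm_tp_ff_chart (L := L) hπ hxE
  haveI : IsIntegrallyClosed (Algebra.adjoin ↥O ({algebraMap ↥E' ↥E lam'} : Set ↥E)) :=
    fc_ff_isIntegrallyClosed (fc_ff_transcendental (L := L) hxE)
  haveI : FaithfulSMul (Algebra.adjoin ↥O ({algebraMap ↥E' ↥E lam'} : Set ↥E)) ↥E :=
    (faithfulSMul_iff_algebraMap_injective _ _).2 Subtype.val_injective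
  -- abbreviations
  set B := fc_chart ↥O ({algebraMap ↥E' ↥E lam'} : Set ↥E) with hB
  set V1 := gq_valSubOf π hπ.ne_zero hπ.maximalIdeal_eq E hE with hV1
  have le1 : ∀ b ∈ B, b ∈ V1 := fun b hb => hC.le H.over1 hb
  have le2 : ∀ b ∈ B, b ∈ V1.comap (W : ↥E →+* ↥E) := fun b hb => hC.le H.over2 hb
  -- `σ_E ∘ ι = ι ∘ σ_{E'}`
  have hσι : ∀ z : ↥E', σE (algebraMap ↥E' ↥E z) = algebraMap ↥E' ↥E (σE' z) := by
    intro z
    apply Subtype.ext
    rw [hσE]
    exact (hσE' z).symm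
  have hσx : σE (algebraMap ↥E' ↥E lam') = algebraMap ↥E' ↥E lam' := by
    rw [hσι, hσlam]
  -- the three restricted endomorphisms
  have hσB : ∀ b ∈ B, σE b ∈ B := fun b hb =>
    s35nf_tower_mem_chart O q E σ hσ σE hσE _ (fun s hs => by
      rw [Set.mem_singleton_iff] at hs
      rw [hs]
      exact hσx) hb
  have hσB' : ∀ b ∈ fc_chart ↥O ({lam'} : Set ↥E'), σE' b ∈ fc_chart ↥O ({lam'} : Set ↥E') :=
    fun b hb => s35nf_tower_mem_chart O q E' σ hσ σE' hσE' _ (fun s hs => by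
      rw [Set.mem_singleton_iff] at hs
      rw [hs]
      exact hσlam) hb
  let τ : B →+* B := RingHom.restrict σE B B hσB
  let τ' : fc_chart ↥O ({lam'} : Set ↥E') →+* fc_chart ↥O ({lam'} : Set ↥E') :=
    RingHom.restrict σE' _ _ hσB'
  let WB : B →+* B := RingHom.restrict (W : ↥E →+* ↥E) B B hWB
  have hτc : ∀ b : B, ((τ b : B) : ↥E) = σE (b : ↥E) := fun _ => rfl
  have hτ'c : ∀ b : fc_chart ↥O ({lam'} : Set ↥E'),
      ((τ' b : fc_chart ↥O ({lam'} : Set ↥E')) : ↥E') = σE' (b : ↥E') := fun _ => rfl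
  have hWBc : ∀ b : B, ((WB b : B) : ↥E) = W (b : ↥E) := fun _ => rfl
  -- the hypotheses of the abstract lemma
  have hτφ : ∀ c, τ (ssm_cpi_phi ↥O ↥E lam' c) = ssm_cpi_phi ↥O ↥E lam' (τ' c) := by
    intro c
    apply Subtype.ext
    rw [hτc, ssm_cpi_phi_coe, ssm_cpi_phi_coe, hτ'c]
    exact hσι _
  have hτP1 : ∀ z ∈ ssm_tp_P B V1, τ z ∈ ssm_tp_P B V1 := by
    intro z hz
    rw [ssm_tp_mem_P le1] at hz ⊢
    rw [hτc]
    exact s35nf_mem_nonunits π hπ.ne_zero hπ.maximalIdeal_eq E hE hσ _ _ (hσE _) hz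
  have hWP1 : ∀ z ∈ ssm_tp_P B V1, WB z ∈ ssm_tp_P B (V1.comap (W : ↥E →+* ↥E)) := by
    intro z hz
    rw [ssm_tp_mem_P le1] at hz
    rw [ssm_tp_mem_P le2, ssm_tw_nonunits_comap, hWBc, hWW]
    exact hz
  have hWWB : ∀ z : B, WB (WB z) = z := fun z => Subtype.ext (hWW _)
  have hfrob : ∀ c : fc_chart ↥O ({lam'} : Set ↥E'),
      WB (ssm_cpi_phi ↥O ↥E lam' (τ' c)) - ssm_cpi_phi ↥O ↥E lam' c ^ q ∈ ssm_tp_P B V1 := by
    intro c
    rw [ssm_tp_mem_P le1]
    have hcV : ((ssm_cpi_phi ↥O ↥E lam' c : B) : ↥E) ∈ V1 := le1 _ (ssm_cpi_phi ↥O ↥E lam' c).2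
    have h := s35nf_frob_mem_nonunits π hπ.ne_zero hπ.maximalIdeal_eq E hE hσ
      ((ssm_cpi_phi ↥O ↥E lam' c : B) : ↥E)
      ((WB (ssm_cpi_phi ↥O ↥E lam' (τ' c)) : B) : ↥E) ?_ hcV
    · exact h
    · rw [hWBc, ssm_cpi_phi_coe, hτ'c]
      have h1 := hW (σE' (c : ↥E'))
      rw [hσE'] at h1
      exact h1
  have key := fun b => s35nf_node (ssm_cpi_phi ↥O ↥E lam') WB τ τ' (ssm_tp_P B V1)
    (ssm_tp_P B (V1.comap (W : ↥E →+* ↥E))) 𝔫 q hτφ hτP1 hWP1 hWWB hfrob hadd hP1 hP2 b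
  have keyiff := fun z => s35nf_node_stable_iff (ssm_cpi_phi ↥O ↥E lam') WB τ τ' (ssm_tp_P B V1)
    (ssm_tp_P B (V1.comap (W : ↥E →+* ↥E))) 𝔫 h𝔫 q (NeZero.ne q) hτφ hτP1 hWP1 hWWB hfrob hadd
    hP1 hP2 z
  refine ⟨fun b => ⟨_, key b, rfl⟩, fun z => ⟨?_, fun hz => ⟨_, (keyiff z).2 hz, rfl⟩⟩⟩
  rintro ⟨m, hm, hmz⟩
  refine (keyiff z).1 ?_
  have : τ (τ z) = m := Subtype.ext hmz.symm
  rw [this]
  exact hm

end Tower

end Fermat.Agent.S35
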