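/-
Project S35, instance-level cell [FROB-N] "FROBENIUS AT THE NODES", HESSE tower, coordinate
`x = μ - 1` ("Option M") (helper20).  Prefix `s35nf_`.

`(L, O, π)` any base of residue characteristic `q ≠ 3` (in the application `q = 2`), `q ∤ N'`, `σ` a
Frobenius lift at `O`, `σ_E = ssm_sgh_aut h3 (N' q) σ` the coefficientwise action on
`E = hs_E L h3 (N' q)`, `B = fc_chart O {μ - 1}`, `P_i = ssm_tp_P B V_i` (`V₁ = ssm_fh_V1`,
`V₂ = ssm_fh_V2`).  Inputs = the level-`N'` inputs of `ssm_crh_cross` (`hprime`, `hic`, `F`).  At every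
maximal crossing point `𝔫 ⊇ P1 + P2`:  `σ_E² b ≡ b^(q²) mod 𝔫` for all `b ∈ B`, and `σ_E² 𝔫 = 𝔫`.
-/
import Mathlib
import Fermat.Agent.S35.NodeFrob.Tower
import Fermat.Agent.SS.Model.FactsHesse

set_option autoImplicit false
set_option linter.unusedSectionVars false
set_option linter.unusedVariables false
set_option linter.style.haveILetI false

noncomputable section

open ModularCurve IntermediateField IsLocalRing Polynomial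
open Fermat.Agent.JT3 Fermat.Agent.SS

namespace Fermat.Agent.S35

section Hesse

variable {L : Type*} [Field L] [CharZero L] [Algebra L (AlgebraicClosure ℚ)] (h3 : (3 : L) ≠ 0)
  (O : ValuationSubring L) [IsDiscreteValuationRing O] (h3O : IsUnit (3 : O)) {π : O}
  (hπ : Irreducible π)
variable (N' q : ℕ) [NeZero N'] [NeZero q] [hq : Fact q.Prime] [CharP (ResidueField O) q]
  (hq3 : ¬ 3 ∣ q) (hqN' : ¬ q ∣ N')

set_option synthInstance.maxHeartbeats 200000 in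
set_option maxHeartbeats 1600000 in
/-- **[FROB-N], Hesse tower (Option M).** -/
theorem s35nf_hes
    (hprime : Prime (algebraMap ↥O
      (fc_chart ↥O ({hs_muE h3 N' - 1} : Set ↥(hs_E L h3 N'))) π))
    (hic : IsIntegrallyClosed (fc_chart ↥O ({hs_muE h3 N' - 1} : Set ↥(hs_E L h3 N')) ⧸
      (Ideal.span {algebraMap ↥O (fc_chart ↥O ({hs_muE h3 N' - 1} : Set ↥(hs_E L h3 N'))) π} :
        Ideal (fc_chart ↥O ({hs_muE h3 N' - 1} : Set ↥(hs_E L h3 N'))))))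
    (F : ssm_i1g_Facts ↥O q (hs_muE h3 (N' * q) - 1)
      (ssm_fh_W h3 N' q hq3 hqN' (hs_muE h3 (N' * q)) - 1)
      (hs_muE h3 (N' * q) ^ 2 + hs_muE h3 (N' * q) + 1)
      (ssm_fh_W h3 N' q hq3 hqN' (hs_muE h3 (N' * q)) ^ 2 +
        ssm_fh_W h3 N' q hq3 hqN' (hs_muE h3 (N' * q)) + 1)
      (ssm_fh_V1 h3 O h3O hπ N' q) (ssm_fh_V2 h3 O h3O hπ N' q hq3 hqN'))
    (σ : L ≃+* L) (hσ : s35nf_FrobAt O σ q)
    (𝔫 : Ideal (fc_chart ↥O ({hs_muE h3 (N' * q) - 1} : Set ↥(hs_E L h3 (N' * q)))))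
    (h𝔫 : 𝔫.IsMaximal)
    (hP1 : ssm_tp_P (fc_chart ↥O ({hs_muE h3 (N' * q) - 1} : Set ↥(hs_E L h3 (N' * q))))
      (ssm_fh_V1 h3 O h3O hπ N' q) ≤ 𝔫)
    (hP2 : ssm_tp_P (fc_chart ↥O ({hs_muE h3 (N' * q) - 1} : Set ↥(hs_E L h3 (N' * q))))
      (ssm_fh_V2 h3 O h3O hπ N' q hq3 hqN') ≤ 𝔫) :
    (∀ b : fc_chart ↥O ({hs_muE h3 (N' * q) - 1} : Set ↥(hs_E L h3 (N' * q))),
      ∃ m ∈ 𝔫, ((m : fc_chart ↥O ({hs_muE h3 (N' * q) - 1} : Set ↥(hs_E L h3 (N' * q)))) :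
          ↥(hs_E L h3 (N' * q))) =
        ssm_sgh_aut h3 (N' * q) σ (ssm_sgh_aut h3 (N' * q) σ (b : ↥(hs_E L h3 (N' * q)))) -
          (b : ↥(hs_E L h3 (N' * q))) ^ (q ^ 2)) ∧
    (∀ z : fc_chart ↥O ({hs_muE h3 (N' * q) - 1} : Set ↥(hs_E L h3 (N' * q))),
      (∃ m ∈ 𝔫, ((m : fc_chart ↥O ({hs_muE h3 (N' * q) - 1} : Set ↥(hs_E L h3 (N' * q)))) :
          ↥(hs_E L h3 (N' * q))) =
        ssm_sgh_aut h3 (N' * q) σ (ssm_sgh_aut h3 (N' * q) σ (z : ↥(hs_E L h3 (N' * q))))) ↔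
        z ∈ 𝔫) := by
  haveI := ssm_glh_finite h3 N'
  haveI : FiniteDimensional
      L⟮IntermediateField.inclusion (ssm_alh_E_le L h3 (ssm_fh_hF9 h3) N' q) (hs_muE h3 N' - 1)⟯
      ↥(hs_E L h3 (N' * q)) :=
    ssm_glh_finite h3 (N' * q)
  have hWO : ∀ a : ↥O, ssm_fh_W h3 N' q hq3 hqN' (algebraMap ↥O ↥(hs_E L h3 (N' * q)) a) =
      algebraMap ↥O ↥(hs_E L h3 (N' * q)) a :=
    fun a => (ssm_alh_WE L h3 (ssm_fh_hF9 h3) N' q hq.out hq3 hqN').commutes (a : L)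
  have hWx : ssm_fh_W h3 N' q hq3 hqN' (hs_muE h3 (N' * q) - 1) =
      ssm_fh_W h3 N' q hq3 hqN' (hs_muE h3 (N' * q)) - 1 := by
    rw [map_sub, map_one]
  obtain ⟨hWB1, -, -⟩ := ssm_i1g_W_charts (ssm_fh_W h3 N' q hq3 hqN') hWO hWx F
  exact s35nf_tower O hπ q (hs_E L h3 N') (hs_E L h3 (N' * q))
    (ssm_alh_E_le L h3 (ssm_fh_hF9 h3) N' q) (hsa_E_le_quotField h3 O (N' * q) h3O)
    (ssm_fh_W h3 N' q hq3 hqN') (ssm_alh_WE_WE L h3 (ssm_fh_hF9 h3) N' q hq.out hq3 hqN')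
    (fun z => ssm_alh_coe_WE_of_mem L h3 (ssm_fh_hF9 h3) N' q hq.out hq3 hqN' z.2 _)
    (ssm_alh_relfinrank_E L h3 (ssm_fh_hF9 h3) N' q hq.out hq3 hqN')
    (hm_mu O h3O - 1) (ssm_glh_frobFixed O h3O q) (-1) (ssm_gh_not_dvd_neg_one q)
    (ssm_glh_coeff O h3O) (hs_muE h3 N' - 1) (ssm_glh_coe_x h3 O h3O N') hprime hic hWB1 σ hσ
    (ssm_sgh_aut h3 N' σ : ↥(hs_E L h3 N') →+* ↥(hs_E L h3 N')) (fun _ => rfl)
    (ssm_sgh_aut h3 (N' * q) σ : ↥(hs_E L h3 (N' * q)) →+* ↥(hs_E L h3 (N' * q))) (fun _ => rfl)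
    (ssm_sgm_aut_x h3 N' σ) 𝔫 h𝔫 hP1 hP2

end Hesse

end Fermat.Agent.S35
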