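/-
Project S35, instance-level cell [FROB-N] "FROBENIUS AT THE NODES", LEGENDRE tower (helper20).
Prefix `s35nf_`.

`(L, O, π)` any base of residue characteristic `q` odd, `q ∤ N'`, `σ` a Frobenius lift at `O`
(`s35nf_FrobAt O σ q`), `σ_E = ssm_sg_aut (N' q) σ` the coefficientwise action on
`E = lg_E L (N' q)`, `B = fc_chart O {λ}`, `P_i = ssm_tp_P B V_i` (`V₁ = ssm_gl_V1`, `V₂ = ssm_gl_V2`).
Inputs = the level-`N'` inputs of `ssm_nl_cross` (`hprime`, `hic`, `F`).  At every maximal crossing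
point `𝔫 ⊇ P1 + P2`:  `σ_E² b ≡ b^(q²) mod 𝔫` for all `b ∈ B`, and `σ_E² 𝔫 = 𝔫`.
-/
import Mathlib
import Fermat.Agent.S35.NodeFrob.Tower
import Fermat.Agent.SS.Model.TwoPrimesLeg

set_option autoImplicit false
set_option linter.unusedSectionVars false
set_option linter.unusedVariables false
set_option linter.style.haveILetI false

noncomputable section

open ModularCurve IntermediateField IsLocalRing Polynomial
open Fermat.Agent.JT3 Fermat.Agent.SS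

namespace Fermat.Agent.S35

section Legendre

variable {L : Type*} [Field L] [CharZero L] [Algebra L (AlgebraicClosure ℚ)]
  (O : ValuationSubring L) [IsDiscreteValuationRing O] {π : O} (hπ : Irreducible π)
variable (N' q : ℕ) [NeZero N'] [NeZero q] [hq : Fact q.Prime] [CharP (ResidueField O) q]
  (hq2 : ¬ 2 ∣ q) (hqN' : ¬ q ∣ N')

set_option synthInstance.maxHeartbeats 200000 in
set_option maxHeartbeats 1600000 in
/-- **[FROB-N], Legendre tower.** -/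
theorem s35nf_leg
    (hprime : Prime (algebraMap ↥O (fc_chart ↥O ({lg_lamE N'} : Set ↥(lg_E L N'))) π))
    (hic : IsIntegrallyClosed (fc_chart ↥O ({lg_lamE N'} : Set ↥(lg_E L N')) ⧸
      (Ideal.span {algebraMap ↥O (fc_chart ↥O ({lg_lamE N'} : Set ↥(lg_E L N'))) π} :
        Ideal (fc_chart ↥O ({lg_lamE N'} : Set ↥(lg_E L N'))))))
    (F : ssm_i1_Facts ↥O q (lg_lamE (N' * q) : ↥(lg_E L (N' * q)))
      (ssm_gl_W L N' q hq2 hqN' (lg_lamE (N' * q))) (ssm_gl_V1 O hπ N' q)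
      (ssm_gl_V2 O hπ N' q hq2 hqN'))
    (σ : L ≃+* L) (hσ : s35nf_FrobAt O σ q)
    (𝔫 : Ideal (fc_chart ↥O ({lg_lamE (N' * q)} : Set ↥(lg_E L (N' * q))))) (h𝔫 : 𝔫.IsMaximal)
    (hP1 : ssm_tp_P (fc_chart ↥O ({lg_lamE (N' * q)} : Set ↥(lg_E L (N' * q))))
      (ssm_gl_V1 O hπ N' q) ≤ 𝔫)
    (hP2 : ssm_tp_P (fc_chart ↥O ({lg_lamE (N' * q)} : Set ↥(lg_E L (N' * q))))
      (ssm_gl_V2 O hπ N' q hq2 hqN') ≤ 𝔫) :
    (∀ b : fc_chart ↥O ({lg_lamE (N' * q)} : Set ↥(lg_E L (N' * q))),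
      ∃ m ∈ 𝔫, ((m : fc_chart ↥O ({lg_lamE (N' * q)} : Set ↥(lg_E L (N' * q)))) :
          ↥(lg_E L (N' * q))) =
        ssm_sg_aut (N' * q) σ (ssm_sg_aut (N' * q) σ (b : ↥(lg_E L (N' * q)))) -
          (b : ↥(lg_E L (N' * q))) ^ (q ^ 2)) ∧
    (∀ z : fc_chart ↥O ({lg_lamE (N' * q)} : Set ↥(lg_E L (N' * q))),
      (∃ m ∈ 𝔫, ((m : fc_chart ↥O ({lg_lamE (N' * q)} : Set ↥(lg_E L (N' * q)))) :
          ↥(lg_E L (N' * q))) =
        ssm_sg_aut (N' * q) σ (ssm_sg_aut (N' * q) σ (z : ↥(lg_E L (N' * q))))) ↔ z ∈ 𝔫) := by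
  haveI := lgf_finite L N'
  haveI : FiniteDimensional
      L⟮IntermediateField.inclusion (ssm_al_E_le L N' q) (lg_lamE N')⟯ ↥(lg_E L (N' * q)) :=
    lgf_finite L (N' * q)
  have hWA : ∀ a : ↥O, ssm_gl_W L N' q hq2 hqN' (algebraMap ↥O ↥(lg_E L (N' * q)) a) =
      algebraMap ↥O ↥(lg_E L (N' * q)) a := fun a =>
    (ssm_al_WE L N' q hq.out hq2 hqN').commutes (a : L)
  obtain ⟨hWB, -, -⟩ := ssm_i1_W_charts (ssm_gl_W L N' q hq2 hqN') hWA rfl F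
  exact s35nf_tower O hπ q (lg_E L N') (lg_E L (N' * q)) (ssm_al_E_le L N' q)
    (ssm_ga_E_le_quotField O (N' * q)) (ssm_gl_W L N' q hq2 hqN')
    (ssm_al_WE_WE L N' q hq.out hq2 hqN')
    (fun z => ssm_al_coe_WE_of_mem L N' q hq.out hq2 hqN' z.2 _)
    (ssm_al_relfinrank_E L N' q hq.out hq2 hqN') (hm_lam O) (ssm_ga_lam_frobFixed O q) 1
    (ssm_gl_not_dvd_one q) (ssm_ga_lam_coeff_one O (ssm_gl_two_ne_zero O q hq2)) (lg_lamE N')
    (hm_coeffMap_lam _).symm hprime hic hWB σ hσ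
    (ssm_sg_aut N' σ : ↥(lg_E L N') →+* ↥(lg_E L N')) (fun _ => rfl)
    (ssm_sg_aut (N' * q) σ : ↥(lg_E L (N' * q)) →+* ↥(lg_E L (N' * q))) (fun _ => rfl)
    (ssm_sg_aut_lam N' σ) 𝔫 h𝔫 hP1 hP2

end Legendre

end Fermat.Agent.S35
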