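/-
Project S35, instance-level cell [FROB-N] "FROBENIUS AT THE NODES", abstract core (helper20).
Mathlib only.  Prefix `s35nf_`.

`φ : B' →+* B` (chart of level `N'` into the chart of level `N' q`), `P1 P2` the two vertical primes
of `B`, `W` the Atkin–Lehner involution of `B` (`W P1 ⊆ P2`, `W² = 1`), `τ`, `τ'` the coefficientwise
actions of a Frobenius lift on `B`, `B'` (ring endomorphisms) (`τ ∘ φ = φ ∘ τ'`, `τ P1 ⊆ P1`).  From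

* the Frobenius congruence on the first component `W (φ (τ' c)) ≡ (φ c)^q mod P1`, and
* `B = φ B' + P1` ((CP1): the first component is the curve of level `N'`),

at every prime `𝔫 ⊇ P1 + P2` (a crossing point):  `τ (τ b) ≡ b ^ (q²) mod 𝔫` for every `b : B`
(`s35nf_node`), hence `τ² 𝔫 ⊆ 𝔫` (`s35nf_node_stable`): the nodes are fixed by the arithmetic
Frobenius squared, which acts on their residue fields as `z ↦ z ^ (q²)`.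
-/
import Mathlib

set_option autoImplicit false
set_option linter.style.haveILetI false

namespace Fermat.Agent.S35

section Abstract

variable {B' B : Type*} [CommRing B'] [CommRing B]

/-- congruent elements have congruent powers. -/
theorem s35nf_pow_sub_pow_mem (I : Ideal B) {a b : B} (h : a - b ∈ I) (n : ℕ) :
    a ^ n - b ^ n ∈ I := by
  obtain ⟨c, hc⟩ := sub_dvd_pow_sub_pow a b n
  rw [hc]
  exact I.mul_mem_right _ h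

/-- **the Frobenius congruence on `φ B'` at a crossing point**: `φ (τ' (τ' c)) ≡ (φ c)^(q²)`. -/
theorem s35nf_node_base (φ : B' →+* B) (W : B →+* B) (τ' : B' →+* B') (P1 P2 𝔫 : Ideal B) (q : ℕ)
    (hWP1 : ∀ z ∈ P1, W z ∈ P2) (hWW : ∀ z, W (W z) = z)
    (hfrob : ∀ c : B', W (φ (τ' c)) - φ c ^ q ∈ P1)
    (h1 : P1 ≤ 𝔫) (h2 : P2 ≤ 𝔫) (c : B') :
    φ (τ' (τ' c)) - φ c ^ (q ^ 2) ∈ 𝔫 := by
  -- (ii) `φ (τ' c₁) - W (φ c₁)^q ∈ P2`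
  have hii : ∀ c₁ : B', φ (τ' c₁) - W (φ c₁) ^ q ∈ P2 := by
    intro c₁
    have h := hWP1 _ (hfrob c₁)
    rwa [map_sub, map_pow, hWW] at h
  have hA : φ (τ' (τ' c)) - W (φ (τ' c)) ^ q ∈ 𝔫 := h2 (hii (τ' c))
  have hB : W (φ (τ' c)) ^ q - (φ c ^ q) ^ q ∈ 𝔫 :=
    s35nf_pow_sub_pow_mem 𝔫 (h1 (hfrob c)) q
  have e : φ (τ' (τ' c)) - φ c ^ (q ^ 2) =
      (φ (τ' (τ' c)) - W (φ (τ' c)) ^ q) + (W (φ (τ' c)) ^ q - (φ c ^ q) ^ q) := by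
    rw [← pow_mul, pow_two]
    ring
  rw [e]
  exact 𝔫.add_mem hA hB

/-- **[FROB-N], abstract form**: `τ (τ b) ≡ b ^ (q²)` modulo every prime `𝔫 ⊇ P1 + P2`. -/
theorem s35nf_node (φ : B' →+* B) (W τ : B →+* B) (τ' : B' →+* B') (P1 P2 𝔫 : Ideal B) (q : ℕ)
    (hτφ : ∀ c, τ (φ c) = φ (τ' c)) (hτP1 : ∀ z ∈ P1, τ z ∈ P1)
    (hWP1 : ∀ z ∈ P1, W z ∈ P2) (hWW : ∀ z, W (W z) = z)
    (hfrob : ∀ c : B', W (φ (τ' c)) - φ c ^ q ∈ P1)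
    (hadd : ∀ b : B, ∃ c : B', b - φ c ∈ P1)
    (h1 : P1 ≤ 𝔫) (h2 : P2 ≤ 𝔫) (b : B) :
    τ (τ b) - b ^ (q ^ 2) ∈ 𝔫 := by
  obtain ⟨c, hc⟩ := hadd b
  have hbase := s35nf_node_base φ W τ' P1 P2 𝔫 q hWP1 hWW hfrob h1 h2 c
  have hτ : τ (τ b) - φ (τ' (τ' c)) ∈ 𝔫 := by
    have h := hτP1 _ (hτP1 _ hc)
    rw [map_sub, map_sub, hτφ, hτφ] at h
    exact h1 h
  have hp : φ c ^ (q ^ 2) - b ^ (q ^ 2) ∈ 𝔫 := by
    have h : φ c - b ∈ P1 := by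
      have := P1.neg_mem hc
      rwa [neg_sub] at this
    exact h1 (s35nf_pow_sub_pow_mem P1 h (q ^ 2))
  have e : τ (τ b) - b ^ (q ^ 2) =
      (τ (τ b) - φ (τ' (τ' c))) + (φ (τ' (τ' c)) - φ c ^ (q ^ 2)) +
        (φ c ^ (q ^ 2) - b ^ (q ^ 2)) := by
    ring
  rw [e]
  exact 𝔫.add_mem (𝔫.add_mem hτ hbase) hp

/-- **the crossing points are stable under `τ²`.** -/
theorem s35nf_node_stable (φ : B' →+* B) (W τ : B →+* B) (τ' : B' →+* B') (P1 P2 𝔫 : Ideal B)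
    (q : ℕ) (hq : q ≠ 0)
    (hτφ : ∀ c, τ (φ c) = φ (τ' c)) (hτP1 : ∀ z ∈ P1, τ z ∈ P1)
    (hWP1 : ∀ z ∈ P1, W z ∈ P2) (hWW : ∀ z, W (W z) = z)
    (hfrob : ∀ c : B', W (φ (τ' c)) - φ c ^ q ∈ P1)
    (hadd : ∀ b : B, ∃ c : B', b - φ c ∈ P1)
    (h1 : P1 ≤ 𝔫) (h2 : P2 ≤ 𝔫) {z : B} (hz : z ∈ 𝔫) : τ (τ z) ∈ 𝔫 := by
  have h := s35nf_node φ W τ τ' P1 P2 𝔫 q hτφ hτP1 hWP1 hWW hfrob hadd h1 h2 z
  have hz' : z ^ (q ^ 2) ∈ 𝔫 := 𝔫.pow_mem_of_mem hz _ (pow_pos (Nat.pos_of_ne_zero hq) 2)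
  have e : τ (τ z) = (τ (τ z) - z ^ (q ^ 2)) + z ^ (q ^ 2) := by ring
  rw [e]
  exact 𝔫.add_mem h hz'

/-- for a MAXIMAL crossing point: `z ∈ 𝔫 ↔ τ (τ z) ∈ 𝔫`. -/
theorem s35nf_node_stable_iff (φ : B' →+* B) (W τ : B →+* B) (τ' : B' →+* B') (P1 P2 𝔫 : Ideal B)
    (h𝔫 : 𝔫.IsMaximal) (q : ℕ) (hq : q ≠ 0)
    (hτφ : ∀ c, τ (φ c) = φ (τ' c)) (hτP1 : ∀ z ∈ P1, τ z ∈ P1)
    (hWP1 : ∀ z ∈ P1, W z ∈ P2) (hWW : ∀ z, W (W z) = z)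
    (hfrob : ∀ c : B', W (φ (τ' c)) - φ c ^ q ∈ P1)
    (hadd : ∀ b : B, ∃ c : B', b - φ c ∈ P1)
    (h1 : P1 ≤ 𝔫) (h2 : P2 ≤ 𝔫) (z : B) : τ (τ z) ∈ 𝔫 ↔ z ∈ 𝔫 := by
  refine ⟨fun h => ?_, fun h =>
    s35nf_node_stable φ W τ τ' P1 P2 𝔫 q hq hτφ hτP1 hWP1 hWW hfrob hadd h1 h2 h⟩
  -- `𝔫 ≤ (τ²)⁻¹ 𝔫`, both maximal
  let τ2 : B →+* B := τ.comp τ
  have hle : 𝔫 ≤ 𝔫.comap τ2 := fun w hw =>
    s35nf_node_stable φ W τ τ' P1 P2 𝔫 q hq hτφ hτP1 hWP1 hWW hfrob hadd h1 h2 hw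
  have hne : 𝔫.comap τ2 ≠ ⊤ := by
    haveI := h𝔫.isPrime
    exact (Ideal.IsPrime.comap τ2).ne_top
  have heq := h𝔫.eq_of_le hne hle
  rw [heq]
  exact h

end Abstract

end Fermat.Agent.S35
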